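import Fermat.Agent.S24.Puiseux.Triple

set_option autoImplicit false
set_option linter.style.haveILetI false

noncomputable section

open HahnSeries ModularCurve

namespace Fermat.Agent.S24.Puiseux

variable {L : Type*} [Field L]

/-! ### Evaluating Laurent series: pure re-indexing lemmas

`evalTerm ι A s n = ι (A.coeff n) * s ^ n` is the `n`-th term of the evaluation of the Laurent
series `A` (coefficients pushed to `ℂ` by `ι`) at the point `s : ℂ`. -/

/-- the `n`-th term of `A` evaluated at `s` -/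
def evalTerm (ι : L →+* ℂ) (A : LaurentSeries L) (s : ℂ) (n : ℤ) : ℂ :=
  ι (A.coeff n) * s ^ n

theorem evalTerm_def (ι : L →+* ℂ) (A : LaurentSeries L) (s : ℂ) (n : ℤ) :
    evalTerm ι A s n = ι (A.coeff n) * s ^ n := rfl

theorem map_units_zpow (ι : L →+* ℂ) (ζ : Lˣ) (n : ℤ) :
    ι ((ζ ^ n : Lˣ) : L) = (ι (ζ : L)) ^ n := by
  rw [Units.val_zpow_eq_zpow_val, map_zpow₀]

theorem evalTerm_scale (ι : L →+* ℂ) (ζ : Lˣ) (A : LaurentSeries L) (s : ℂ) (n : ℤ) :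
    evalTerm ι (scale ζ A) s n = evalTerm ι A (ι (ζ : L) * s) n := by
  rw [evalTerm, evalTerm, scale_coeff, map_mul, map_units_zpow, mul_zpow]
  ring

theorem evalTerm_scale_fun (ι : L →+* ℂ) (ζ : Lˣ) (A : LaurentSeries L) (s : ℂ) :
    evalTerm ι (scale ζ A) s = evalTerm ι A (ι (ζ : L) * s) :=
  funext (evalTerm_scale ι ζ A s)

theorem hasSum_scale_iff (ι : L →+* ℂ) (ζ : Lˣ) (A : LaurentSeries L) (s v : ℂ) :
    HasSum (evalTerm ι (scale ζ A) s) v ↔ HasSum (evalTerm ι A (ι (ζ : L) * s)) v := by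
  rw [evalTerm_scale_fun]

theorem summable_scale_iff (ι : L →+* ℂ) (ζ : Lˣ) (A : LaurentSeries L) (s : ℂ) :
    Summable (evalTerm ι (scale ζ A) s) ↔ Summable (evalTerm ι A (ι (ζ : L) * s)) := by
  rw [evalTerm_scale_fun]

theorem evalTerm_qExpand_mul (ι : L →+* ℂ) (m : ℕ) [NeZero m] (A : LaurentSeries L) (s : ℂ)
    (n : ℤ) : evalTerm ι (qExpand L m A) s ((m : ℤ) * n) = evalTerm ι A (s ^ m) n := by
  rw [evalTerm, evalTerm, qExpand_coeff_mul, zpow_mul, zpow_natCast]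

theorem evalTerm_qExpand_of_not_dvd (ι : L →+* ℂ) (m : ℕ) [NeZero m] (A : LaurentSeries L)
    (s : ℂ) {k : ℤ} (hk : ¬ (m : ℤ) ∣ k) : evalTerm ι (qExpand L m A) s k = 0 := by
  rw [evalTerm, qExpand_coeff_of_not_dvd m A hk, map_zero, zero_mul]

theorem mulLeft_injective_of_neZero (m : ℕ) [NeZero m] :
    Function.Injective (fun n : ℤ => (m : ℤ) * n) :=
  mul_right_injective₀ (by exact_mod_cast NeZero.ne m)

theorem evalTerm_qExpand_comp (ι : L →+* ℂ) (m : ℕ) [NeZero m] (A : LaurentSeries L) (s : ℂ) :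
    (evalTerm ι (qExpand L m A) s) ∘ (fun n : ℤ => (m : ℤ) * n) = evalTerm ι A (s ^ m) :=
  funext (evalTerm_qExpand_mul ι m A s)

theorem hasSum_qExpand_iff (ι : L →+* ℂ) (m : ℕ) [NeZero m] (A : LaurentSeries L) (s v : ℂ) :
    HasSum (evalTerm ι (qExpand L m A) s) v ↔ HasSum (evalTerm ι A (s ^ m)) v := by
  rw [← evalTerm_qExpand_comp]
  refine ((mulLeft_injective_of_neZero m).hasSum_iff ?_).symm
  intro k hk
  refine evalTerm_qExpand_of_not_dvd ι m A s ?_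
  rintro ⟨n, rfl⟩
  exact hk ⟨n, rfl⟩

theorem summable_qExpand_iff (ι : L →+* ℂ) (m : ℕ) [NeZero m] (A : LaurentSeries L) (s : ℂ) :
    Summable (evalTerm ι (qExpand L m A) s) ↔ Summable (evalTerm ι A (s ^ m)) := by
  rw [← evalTerm_qExpand_comp]
  refine ((mulLeft_injective_of_neZero m).summable_iff ?_).symm
  intro k hk
  refine evalTerm_qExpand_of_not_dvd ι m A s ?_
  rintro ⟨n, rfl⟩
  exact hk ⟨n, rfl⟩

theorem summable_norm_qExpand_iff (ι : L →+* ℂ) (m : ℕ) [NeZero m] (A : LaurentSeries L)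
    (s : ℂ) :
    Summable (fun k => ‖evalTerm ι (qExpand L m A) s k‖) ↔
      Summable (fun n => ‖evalTerm ι A (s ^ m) n‖) := by
  have hcomp : (fun k => ‖evalTerm ι (qExpand L m A) s k‖) ∘ (fun n : ℤ => (m : ℤ) * n)
      = fun n => ‖evalTerm ι A (s ^ m) n‖ := by
    funext n
    simp only [Function.comp_apply, evalTerm_qExpand_mul]
  rw [← hcomp]
  refine ((mulLeft_injective_of_neZero m).summable_iff ?_).symm
  intro k hk
  have h0 : evalTerm ι (qExpand L m A) s k = 0 := by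
    refine evalTerm_qExpand_of_not_dvd ι m A s ?_
    rintro ⟨n, rfl⟩
    exact hk ⟨n, rfl⟩
  simp [h0]

/-- Evaluating the formal `A(ζ s^m)`: the sum of `qExpand m (scale ζ A)` at `s` is the sum of `A`
at `ι ζ * s ^ m`. -/
theorem hasSum_qExpand_scale_iff (ι : L →+* ℂ) (ζ : Lˣ) (m : ℕ) [NeZero m]
    (A : LaurentSeries L) (s v : ℂ) :
    HasSum (evalTerm ι (qExpand L m (scale ζ A)) s) v ↔
      HasSum (evalTerm ι A (ι (ζ : L) * s ^ m)) v := by
  rw [hasSum_qExpand_iff, hasSum_scale_iff]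

theorem summable_norm_qExpand_scale_iff (ι : L →+* ℂ) (ζ : Lˣ) (m : ℕ) [NeZero m]
    (A : LaurentSeries L) (s : ℂ) :
    Summable (fun k => ‖evalTerm ι (qExpand L m (scale ζ A)) s k‖) ↔
      Summable (fun n => ‖evalTerm ι A (ι (ζ : L) * s ^ m) n‖) := by
  rw [summable_norm_qExpand_iff, evalTerm_scale_fun]

theorem hasSum_cuspSeries_iff (ι : L →+* ℂ) (ζ : Lˣ) (m : ℕ) [NeZero m] (s v : ℂ) :
    HasSum (evalTerm ι (cuspSeries ζ m) s) v ↔
      HasSum (evalTerm ι (jqModC L) (ι (ζ : L) * s ^ m)) v :=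
  hasSum_qExpand_scale_iff ι ζ m (jqModC L) s v

/-! ### The exponential bookkeeping -/

open Complex in
/-- `e^(2πi (aτ+b)/d) = e^(2πi b/d) · (e^(2πi τ/N))^(a N/d)` for `d ∣ N`. -/
theorem exp_moebius_eq (N a d : ℕ) (b : ℤ) (hN : N ≠ 0) (hd : d ∣ N) (τ : ℂ) :
    Complex.exp (2 * Real.pi * Complex.I * ((a * τ + b) / d)) =
      Complex.exp (2 * Real.pi * Complex.I * (b / d)) *
        (Complex.exp (2 * Real.pi * Complex.I * τ / N)) ^ (a * (N / d)) := by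
  have hdpos : d ≠ 0 := fun h0 => hN (by
    rcases hd with ⟨c, rfl⟩
    rw [h0, zero_mul])
  have hN' : (N : ℂ) ≠ 0 := by exact_mod_cast hN
  have hd' : (d : ℂ) ≠ 0 := by exact_mod_cast hdpos
  rw [← Complex.exp_nat_mul, ← Complex.exp_add]
  congr 1
  have hcast : ((a * (N / d) : ℕ) : ℂ) = (a : ℂ) * ((N : ℂ) / (d : ℂ)) := by
    rw [Nat.cast_mul, Nat.cast_div hd hd']
  rw [hcast]
  field_simp
  ring

/-- `(e^(2πi τ/N))^N = e^(2πi τ)`. -/
theorem exp_div_pow (N : ℕ) (hN : N ≠ 0) (τ : ℂ) :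
    (Complex.exp (2 * Real.pi * Complex.I * τ / N)) ^ N =
      Complex.exp (2 * Real.pi * Complex.I * τ) := by
  have hN' : (N : ℂ) ≠ 0 := by exact_mod_cast hN
  rw [← Complex.exp_nat_mul]
  congr 1
  field_simp

/-- `e^(2πi (τ+1)/N) = e^(2πi/N) · e^(2πi τ/N)`. -/
theorem exp_div_add_one (N : ℕ) (τ : ℂ) :
    Complex.exp (2 * Real.pi * Complex.I * (τ + 1) / N) =
      Complex.exp (2 * Real.pi * Complex.I / N) * Complex.exp (2 * Real.pi * Complex.I * τ / N) := by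
  rw [← Complex.exp_add]
  congr 1
  ring

/-- Shift `τ ↦ τ + 1`: the expansion of `φ(τ+1)` in `s = e^(2πiτ/N)` is `scale ζ_N` of that of
`φ`. -/
theorem hasSum_shift_iff (ι : L →+* ℂ) {N : ℕ} (ζ : Lˣ)
    (hζ : ι (ζ : L) = Complex.exp (2 * Real.pi * Complex.I / N)) (A : LaurentSeries L)
    (τ v : ℂ) :
    HasSum (evalTerm ι (scale ζ A) (Complex.exp (2 * Real.pi * Complex.I * τ / N))) v ↔
      HasSum (evalTerm ι A (Complex.exp (2 * Real.pi * Complex.I * (τ + 1) / N))) v := by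
  rw [hasSum_scale_iff, hζ, exp_div_add_one]

/-- Möbius substitution `τ ↦ (aτ+b)/d`, `d ∣ N`: if `A` evaluated at `e^(2πiτ')` sums to `v` for
`τ' = (aτ+b)/d`, then `cuspP`-type series `qExpand (a N/d) (scale ζ_d^b A)` evaluated at
`s = e^(2πiτ/N)` sums to `v`. -/
theorem hasSum_moebius_iff (ι : L →+* ℂ) {N : ℕ} (hN : N ≠ 0) (ζ : Lˣ)
    (hζ : ι (ζ : L) = Complex.exp (2 * Real.pi * Complex.I / N))
    (a d : ℕ) (b : ℤ) (hd : d ∣ N) [NeZero (a * (N / d))] (A : LaurentSeries L) (τ v : ℂ) :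
    HasSum (evalTerm ι (qExpand L (a * (N / d)) (scale (ζ ^ (((N / d : ℕ) : ℤ) * b)) A))
        (Complex.exp (2 * Real.pi * Complex.I * τ / N))) v ↔
      HasSum (evalTerm ι A (Complex.exp (2 * Real.pi * Complex.I * ((a * τ + b) / d)))) v := by
  have hdpos : d ≠ 0 := fun h0 => hN (by
    rcases hd with ⟨c, rfl⟩
    rw [h0, zero_mul])
  have hN' : (N : ℂ) ≠ 0 := by exact_mod_cast hN
  have hd' : (d : ℂ) ≠ 0 := by exact_mod_cast hdpos
  rw [hasSum_qExpand_scale_iff, exp_moebius_eq N a d b hN hd τ]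
  have hz : ι ((ζ ^ (((N / d : ℕ) : ℤ) * b) : Lˣ) : L) =
      Complex.exp (2 * Real.pi * Complex.I * (b / d)) := by
    rw [map_units_zpow, hζ, ← Complex.exp_int_mul]
    congr 1
    have hcast : (((N / d : ℕ) : ℤ) : ℂ) = (N : ℂ) / (d : ℂ) := by
      rw [Int.cast_natCast, Nat.cast_div hd hd']
    rw [Int.cast_mul, hcast]
    field_simp
  rw [hz]

theorem summable_norm_moebius_iff (ι : L →+* ℂ) {N : ℕ} (hN : N ≠ 0) (ζ : Lˣ)
    (hζ : ι (ζ : L) = Complex.exp (2 * Real.pi * Complex.I / N))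
    (a d : ℕ) (b : ℤ) (hd : d ∣ N) [NeZero (a * (N / d))] (A : LaurentSeries L) (τ : ℂ) :
    Summable (fun k => ‖evalTerm ι (qExpand L (a * (N / d))
        (scale (ζ ^ (((N / d : ℕ) : ℤ) * b)) A))
        (Complex.exp (2 * Real.pi * Complex.I * τ / N)) k‖) ↔
      Summable (fun n => ‖evalTerm ι A
        (Complex.exp (2 * Real.pi * Complex.I * ((a * τ + b) / d))) n‖) := by
  have hdpos : d ≠ 0 := fun h0 => hN (by
    rcases hd with ⟨c, rfl⟩
    rw [h0, zero_mul])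
  have hN' : (N : ℂ) ≠ 0 := by exact_mod_cast hN
  have hd' : (d : ℂ) ≠ 0 := by exact_mod_cast hdpos
  rw [summable_norm_qExpand_scale_iff, exp_moebius_eq N a d b hN hd τ]
  have hz : ι ((ζ ^ (((N / d : ℕ) : ℤ) * b) : Lˣ) : L) =
      Complex.exp (2 * Real.pi * Complex.I * (b / d)) := by
    rw [map_units_zpow, hζ, ← Complex.exp_int_mul]
    congr 1
    have hcast : (((N / d : ℕ) : ℤ) : ℂ) = (N : ℂ) / (d : ℂ) := by
      rw [Int.cast_natCast, Nat.cast_div hd hd']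
    rw [Int.cast_mul, hcast]
    field_simp
  rw [hz]

/-- The Möbius substitution for `cuspP`. -/
theorem hasSum_cuspP_iff (ι : L →+* ℂ) {N : ℕ} (hN : N ≠ 0) (ζ : Lˣ)
    (hζ : ι (ζ : L) = Complex.exp (2 * Real.pi * Complex.I / N))
    (a d : ℕ) (b : ℤ) (hd : d ∣ N) (ha : a ≠ 0) (τ v : ℂ) :
    HasSum (evalTerm ι (cuspP ζ N a d b) (Complex.exp (2 * Real.pi * Complex.I * τ / N))) v ↔
      HasSum (evalTerm ι (jqModC L)
        (Complex.exp (2 * Real.pi * Complex.I * ((a * τ + b) / d)))) v := by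
  have hdpos : 0 < d := Nat.pos_of_ne_zero (fun h0 => hN (by
    rcases hd with ⟨c, rfl⟩
    rw [h0, zero_mul]))
  have hNd : 0 < N / d := Nat.div_pos (Nat.le_of_dvd (Nat.pos_of_ne_zero hN) hd) hdpos
  haveI : NeZero (a * (N / d)) := ⟨(Nat.mul_pos (Nat.pos_of_ne_zero ha) hNd).ne'⟩
  rw [cuspP_eq, cuspSeries]
  exact hasSum_moebius_iff ι hN ζ hζ a d b hd (jqModC L) τ v

end Fermat.Agent.S24.Puiseux
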