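import Fermat.Agent.S24.Puiseux.Formal

set_option autoImplicit false
set_option linter.style.haveILetI false

noncomputable section

open HahnSeries ModularCurve

namespace Fermat.Agent.S24.Puiseux

variable {L : Type*} [Field L]

/-- `scale ζ` as an `L`-algebra endomorphism. -/
def scaleAlgHom (ζ : Lˣ) : LaurentSeries L →ₐ[L] LaurentSeries L :=
  { scale ζ with commutes' := scale_algebraMap ζ }

@[simp]
theorem scaleAlgHom_apply (ζ : Lˣ) (A : LaurentSeries L) : scaleAlgHom ζ A = scale ζ A := rfl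

/-- `scale ζ` as an `L`-algebra automorphism. -/
def scaleAlgEquiv (ζ : Lˣ) : LaurentSeries L ≃ₐ[L] LaurentSeries L :=
  AlgEquiv.ofAlgHom (scaleAlgHom ζ) (scaleAlgHom ζ⁻¹)
    (AlgHom.ext fun A => scale_scale_inv ζ A) (AlgHom.ext fun A => scale_inv_scale ζ A)

@[simp]
theorem scaleAlgEquiv_apply (ζ : Lˣ) (A : LaurentSeries L) : scaleAlgEquiv ζ A = scale ζ A := rfl

/-- The series attached to a triple `(a, b, d)` with `d ∣ N`: the formal `j(ζ_d^b s^(a N / d))`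
where `ζ_d = ζ ^ (N / d)`; for `ζ ↦ e^(2πi/N)` this is the `s = q^(1/N)`-expansion of
`τ ↦ j((a τ + b) / d)`. Junk value `0` when `a * (N / d) = 0`. -/
def cuspP (ζ : Lˣ) (N a d : ℕ) (b : ℤ) : LaurentSeries L :=
  if h : a * (N / d) = 0 then 0
  else @cuspSeries L _ (ζ ^ (((N / d : ℕ) : ℤ) * b)) (a * (N / d)) ⟨h⟩

theorem cuspP_eq (ζ : Lˣ) (N a d : ℕ) (b : ℤ) [h : NeZero (a * (N / d))] :
    cuspP ζ N a d b = cuspSeries (ζ ^ (((N / d : ℕ) : ℤ) * b)) (a * (N / d)) := by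
  rw [cuspP, dif_neg h.out]

theorem cuspP_one_zero (ζ : Lˣ) (N d' : ℕ) [NeZero N] [NeZero d'] :
    cuspP ζ N d' 1 0 = qExpand L (d' * N) (jqModC L) := by
  haveI : NeZero (d' * (N / 1)) := ⟨by
    rw [Nat.div_one]
    exact Nat.mul_ne_zero (NeZero.ne d') (NeZero.ne N)⟩
  rw [cuspP_eq]
  simp only [mul_zero, zpow_zero]
  have h1 : d' * (N / 1) = d' * N := by rw [Nat.div_one]
  rw [cuspSeries_one_eq]
  exact qExpand_congr h1 _

/-- `T`-action: `s ↦ ζ s` sends the series of `(a, b, d)` to that of `(a, b + a, d)`. -/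
theorem scale_cuspP (ζ : Lˣ) (N a d : ℕ) (b : ℤ) :
    scale ζ (cuspP ζ N a d b) = cuspP ζ N a d (b + a) := by
  by_cases h : a * (N / d) = 0
  · rw [cuspP, dif_pos h, cuspP, dif_pos h, map_zero]
  · haveI : NeZero (a * (N / d)) := ⟨h⟩
    rw [cuspP_eq, cuspP_eq, scale_cuspSeries]
    congr 1
    rw [← zpow_natCast, ← zpow_add]
    congr 1
    push_cast
    ring

/-- The series only depends on `b` modulo `d` (when `ζ ^ N = 1` and `d ∣ N`). -/
theorem cuspP_add_d {ζ : Lˣ} {N : ℕ} (hζ : ζ ^ N = 1) (a : ℕ) {d : ℕ} (hd : d ∣ N) (b : ℤ) :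
    cuspP ζ N a d (b + d) = cuspP ζ N a d b := by
  by_cases h : a * (N / d) = 0
  · rw [cuspP, dif_pos h, cuspP, dif_pos h]
  · haveI : NeZero (a * (N / d)) := ⟨h⟩
    rw [cuspP_eq, cuspP_eq]
    congr 1
    rw [mul_add, zpow_add]
    have h1 : (((N / d : ℕ) : ℤ) * (d : ℤ)) = (N : ℤ) := by
      exact_mod_cast Nat.div_mul_cancel hd
    rw [h1, zpow_natCast, hζ, mul_one]

theorem cuspP_add_mul_d {ζ : Lˣ} {N : ℕ} (hζ : ζ ^ N = 1) (a : ℕ) {d : ℕ} (hd : d ∣ N)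
    (b k : ℤ) : cuspP ζ N a d (b + k * d) = cuspP ζ N a d b := by
  by_cases h : a * (N / d) = 0
  · rw [cuspP, dif_pos h, cuspP, dif_pos h]
  · haveI : NeZero (a * (N / d)) := ⟨h⟩
    rw [cuspP_eq, cuspP_eq]
    congr 1
    rw [mul_add, zpow_add]
    have h1 : (((N / d : ℕ) : ℤ) * (k * (d : ℤ))) = (N : ℤ) * k := by
      have h2 : (((N / d : ℕ) : ℤ) * (d : ℤ)) = (N : ℤ) := by
        exact_mod_cast Nat.div_mul_cancel hd
      calc (((N / d : ℕ) : ℤ) * (k * (d : ℤ))) = (((N / d : ℕ) : ℤ) * (d : ℤ)) * k := by ring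
        _ = (N : ℤ) * k := by rw [h2]
    have h3 : ζ ^ ((N : ℤ) * k) = 1 := by
      rw [zpow_mul, zpow_natCast, hζ, one_zpow]
    rw [h1, h3, mul_one]

theorem order_cuspP (ζ : Lˣ) (N a d : ℕ) (b : ℤ) :
    (cuspP ζ N a d b).order = -((a * (N / d) : ℕ) : ℤ) := by
  by_cases h : a * (N / d) = 0
  · rw [cuspP, dif_pos h, h]
    simp
  · haveI : NeZero (a * (N / d)) := ⟨h⟩
    rw [cuspP_eq, order_cuspSeries]

theorem cuspP_ne_zero (ζ : Lˣ) (N a d : ℕ) (b : ℤ) (h : a * (N / d) ≠ 0) :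
    cuspP ζ N a d b ≠ 0 := by
  haveI : NeZero (a * (N / d)) := ⟨h⟩
  rw [cuspP_eq]
  exact cuspSeries_ne_zero _ _

/-- The series determines the triple: `a`, `d`, and `b` modulo `d`. -/
theorem cuspP_injective {ζ : Lˣ} {N : ℕ} (hζ : IsPrimitiveRoot ζ N) (hN : N ≠ 0)
    {a d a' d' : ℕ} {b b' : ℤ} (hd : d ∣ N) (hd' : d' ∣ N) (ha : 0 < a) (ha' : 0 < a')
    (hprod : a * d = a' * d')
    (h : cuspP ζ N a d b = cuspP ζ N a' d' b') :
    a = a' ∧ d = d' ∧ (d : ℤ) ∣ b - b' := by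
  have hdpos : 0 < d := Nat.pos_of_ne_zero (fun h0 => hN (by
    rcases hd with ⟨c, rfl⟩
    rw [h0, zero_mul]))
  have hd'pos : 0 < d' := Nat.pos_of_ne_zero (fun h0 => hN (by
    rcases hd' with ⟨c, rfl⟩
    rw [h0, zero_mul]))
  have hNd : 0 < N / d := Nat.div_pos (Nat.le_of_dvd (Nat.pos_of_ne_zero hN) hd) hdpos
  have hNd' : 0 < N / d' := Nat.div_pos (Nat.le_of_dvd (Nat.pos_of_ne_zero hN) hd') hd'pos
  haveI : NeZero (a * (N / d)) := ⟨(Nat.mul_pos ha hNd).ne'⟩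
  haveI : NeZero (a' * (N / d')) := ⟨(Nat.mul_pos ha' hNd').ne'⟩
  rw [cuspP_eq, cuspP_eq] at h
  obtain ⟨hm, hz⟩ := cuspSeries_injective h
  -- a * (N / d) = a' * (N / d') and a d = a' d'  ⟹  a = a'
  have e1 : (N / d) * d = N := Nat.div_mul_cancel hd
  have e2 : (N / d') * d' = N := Nat.div_mul_cancel hd'
  have hcross : a * d' = a' * d := by
    have h3 : a * (N / d) * (d * d') = a' * (N / d') * (d * d') := by rw [hm]
    have h4 : a * (N / d) * (d * d') = N * (a * d') := by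
      calc a * (N / d) * (d * d') = ((N / d) * d) * (a * d') := by ring
        _ = N * (a * d') := by rw [e1]
    have h5 : a' * (N / d') * (d * d') = N * (a' * d) := by
      calc a' * (N / d') * (d * d') = ((N / d') * d') * (a' * d) := by ring
        _ = N * (a' * d) := by rw [e2]
    rw [h4, h5] at h3
    exact Nat.eq_of_mul_eq_mul_left (Nat.pos_of_ne_zero hN) h3
  have haa : a = a' := by
    have h6 : a * a * (d * d') = a' * a' * (d * d') := by
      calc a * a * (d * d') = (a * d) * (a * d') := by ring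
        _ = (a' * d') * (a' * d) := by rw [hprod, hcross]
        _ = a' * a' * (d * d') := by ring
    have h7 : a * a = a' * a' :=
      Nat.eq_of_mul_eq_mul_right (Nat.mul_pos hdpos hd'pos) h6
    exact Nat.mul_self_inj.mp h7
  subst haa
  have hdd : d = d' := Nat.eq_of_mul_eq_mul_left ha hprod
  subst hdd
  refine ⟨rfl, rfl, ?_⟩
  -- ζ ^ ((N/d) * b) = ζ ^ ((N/d) * b')
  have h8 : ζ ^ (((N / d : ℕ) : ℤ) * (b - b')) = 1 := by
    rw [mul_sub, zpow_sub, hz, mul_inv_cancel]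
  have h9 : (N : ℤ) ∣ ((N / d : ℕ) : ℤ) * (b - b') := (hζ.zpow_eq_one_iff_dvd _).mp h8
  have h10 : (N : ℤ) = ((N / d : ℕ) : ℤ) * (d : ℤ) := by exact_mod_cast e1.symm
  rw [h10] at h9
  have hne : ((N / d : ℕ) : ℤ) ≠ 0 := by exact_mod_cast hNd.ne'
  exact (mul_dvd_mul_iff_left hne).mp h9

end Fermat.Agent.S24.Puiseux
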