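import Fermat.Agent.S24.Generic.G3
import Fermat.Agent.S24.Comb.Counts
import Fermat.Agent.S24.Modular.M0
import Fermat.Agent.S24.Modular.M3
import Fermat.Agent.S24.FF.Shift
import Fermat.Agent.S24.FF.Basic
import Fermat.Agent.S24.Puiseux.Triple

set_option autoImplicit false
set_option linter.style.haveILetI false

/-!
Wiring of M7 (fibre over `j = ∞`): from a family of "cusp embeddings" of a generating subalgebra
of `F_N` into `ℚ̄((s))`, `s = q^(1/N)`, indexed by `SL(2,ℤ) ⧸ Γ₀(N)`, on which `T` acts by the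
substitution `s ↦ ξ s` (`ξ` a primitive `N`-th root of unity), deduce that the number of poles of
`j` is `cuspCount N`. Uses G3 (fibre count), C1, C4, M0, M3.
-/

noncomputable section

open HahnSeries ModularCurve AlgebraicCurve IntermediateField CongruenceSubgroup
open scoped MatrixGroups

namespace Fermat.Agent.S24.Puiseux

open Fermat.Agent.S24.Modular

/-- iterating the `T`-twist -/
theorem rho_iterate_T {N : ℕ} {F₀ : Type*} [Semiring F₀]
    (ρ : SL(2, ℤ) ⧸ Gamma0 N → F₀ →+* LaurentSeries Kbar) (ξ : Kbarˣ)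
    (hT : ∀ i (f : F₀), ρ (ModularGroup.T • i) f = scale ξ (ρ i f))
    (m : ℕ) (i : SL(2, ℤ) ⧸ Gamma0 N) (f : F₀) :
    ρ ((fun i => ModularGroup.T • i)^[m] i) f = scale (ξ ^ m) (ρ i f) := by
  induction m generalizing i with
  | zero => simp
  | succ m ih =>
      rw [Function.iterate_succ_apply', hT, ih, scale_scale, pow_succ, mul_comm]

/-- M7 from cusp embeddings. -/
theorem card_fibre_infty_of_embeddings (N : ℕ) [NeZero N]
    (F₀ : Subalgebra Kbar (FN N))
    (hF₀ : ∀ f : FN N, ∃ a b : F₀, (b : FN N) ≠ 0 ∧ f * b = a)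
    (hj : jF N ∈ F₀)
    (ρ : SL(2, ℤ) ⧸ Gamma0 N → F₀ →+* LaurentSeries Kbar)
    (hρ_inj : ∀ i, Function.Injective (ρ i))
    (hρ_ne : Function.Injective ρ)
    (hconst : ∀ i (c : Kbar), ρ i (algebraMap Kbar F₀ c) = HahnSeries.C c)
    (hρj : ∀ i, ρ i ⟨jF N, hj⟩ = qExpand Kbar N (jqModC Kbar))
    (ξ : Kbarˣ) (hξ : IsPrimitiveRoot ξ N)
    (hT : ∀ i (f : F₀), ρ (ModularGroup.T • i) f = scale ξ (ρ i f)) :
    Nat.card {v : Place Kbar (FN N) // v.ord (jF N) < 0} = cuspCount N := by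
  classical
  have hx := transcendental_jF N
  have htr := trdeg_FN N
  have hfin : FiniteDimensional Kbar⟮jF N⟯ (FN N) :=
    Fermat.Agent.S24.FF.finite_adjoin_simple htr hx
  have hx' : Transcendental Kbar (jF N)⁻¹ := Fermat.Agent.S24.FF.transcendental_inv hx
  have hfin' : FiniteDimensional Kbar⟮(jF N)⁻¹⟯ (FN N) :=
    Fermat.Agent.S24.FF.finiteDimensional_adjoin_inv _ hfin
  have hj0 : jF N ≠ 0 := fun h => hx (h ▸ isAlgebraic_zero)
  letI : Fintype (SL(2, ℤ) ⧸ Gamma0 N) := Fintype.ofFinite _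
  have hN : 0 < N := Nat.pos_of_ne_zero (NeZero.ne N)
  have hordj : (qExpand Kbar N (jqModC Kbar)).order = -(N : ℤ) := by
    rw [order_qExpand, order_jqModC]
    ring
  rw [Fermat.Agent.S24.FF.card_poles_eq_card_zeros_inv,
    ← Fermat.Agent.S24.Comb.card_orbits_T N]
  refine Fermat.Agent.S24.Generic.card_zeroPlaces_eq_card_orbits htr (jF N)⁻¹ hx' hfin'
    F₀ hF₀ (1 : F₀) ⟨jF N, hj⟩ ?_ ?_ (HahnSeries.order (Γ := ℤ) (R := Kbar))
    ?_ ?_ ρ hρ_inj hρ_ne ?_ ?_ ?_ ?_ ?_ N hN ?_ ModularGroup.T ?_ ?_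
  · -- den ≠ 0
    intro h
    exact hj0 (congrArg Subtype.val h)
  · -- x * den = num
    show (jF N)⁻¹ * jF N = ((1 : F₀) : FN N)
    rw [inv_mul_cancel₀ hj0]
    rfl
  · -- hmul
    intro a b ha hb
    exact HahnSeries.order_mul ha hb
  · -- hadd
    intro a b _ _ hab
    exact HahnSeries.min_order_le_order_add hab
  · -- hcard
    rw [Fermat.Agent.S24.FF.finrank_adjoin_inv, finrank_jF N,
      ← Fermat.Agent.S24.Comb.card_quotient_Gamma0 N, Nat.card_eq_fintype_card]
  · -- hK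
    intro i j c
    rw [hconst, hconst]
  · -- hnum
    intro i j
    rw [map_one, map_one]
  · -- hden'
    intro i j
    rw [hρj, hρj]
  · -- hconst
    intro i c _
    rw [hconst]
    exact HahnSeries.order_C
  · -- hxs
    intro i
    rw [map_one, hρj, hordj, HahnSeries.order_one]
    ring
  · -- hg
    intro i f
    rw [hT, order_scale]
  · -- hdiv
    intro i f _
    set m := Function.minimalPeriod (fun i : SL(2, ℤ) ⧸ Gamma0 N => ModularGroup.T • i) i with hm
    have hper : (fun i : SL(2, ℤ) ⧸ Gamma0 N => ModularGroup.T • i)^[m] i = i :=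
      Function.isPeriodicPt_minimalPeriod _ i
    have hinv : scale (ξ ^ m) (ρ i f) = ρ i f := by
      rw [← rho_iterate_T ρ ξ hT m i f, hper]
    have h := dvd_mul_order_of_scale_pow_eq hξ m hinv
    rw [mul_comm] at h
    exact h

end Fermat.Agent.S24.Puiseux
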