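import Fermat.Agent.S24.Puiseux.Subst
import Fermat.Agent.S24.QBridge
import Fermat.Agent.S24.JFun

set_option autoImplicit false
set_option linter.style.haveILetI false

noncomputable section

open HahnSeries ModularCurve

namespace Fermat.Agent.S24.Puiseux

variable {L : Type*} [Field L]

/-- coefficients of `jqModC` in terms of `jNum` -/
theorem coeff_jqModC_natCast_sub_one (n : ℕ) :
    (jqModC L).coeff ((n : ℤ) - 1) = ((PowerSeries.coeff n ModularCurve.jNum : ℤ) : L) := by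
  rw [jqModC, HahnSeries.coeff_single_mul, one_mul,
    show ((n : ℤ) - 1 - (-1)) = (n : ℤ) by ring, HahnSeries.ofPowerSeries_apply_coeff,
    PowerSeries.coeff_map]
  rfl

theorem coeff_jqModC_of_lt {k : ℤ} (hk : k < -1) : (jqModC L).coeff k = 0 := by
  rw [jqModC, HahnSeries.coeff_single_mul, one_mul]
  exact ofPowerSeries_coeff_of_neg _ (by omega)

/-- **Laurent expansion of the analytic `j`** in `q = exp(2πiτ)`, with coefficients in any field
`L` pushed to `ℂ` by any ring hom. -/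
theorem hasSum_jqModC (ι : L →+* ℂ) (τ : UpperHalfPlane) :
    HasSum (evalTerm ι (jqModC L) (Function.Periodic.qParam 1 τ)) (JFun.jFun τ) := by
  set q : ℂ := Function.Periodic.qParam 1 τ with hq
  have hq0 : q ≠ 0 := Complex.exp_ne_zero _
  have h := (QBridge.hasSum_jNum τ).mul_left q⁻¹
  rw [← hq, ← mul_assoc, inv_mul_cancel₀ hq0, one_mul] at h
  have hinj : Function.Injective (fun n : ℕ => (n : ℤ) - 1) := by
    intro m n hmn
    simp only at hmn
    omega
  have hzero : ∀ k : ℤ, k ∉ Set.range (fun n : ℕ => (n : ℤ) - 1) →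
      evalTerm ι (jqModC L) q k = 0 := by
    intro k hk
    have hk' : k < -1 := by
      by_contra hcon
      exact hk ⟨(k + 1).toNat, by simp only; omega⟩
    rw [evalTerm, coeff_jqModC_of_lt hk', map_zero, zero_mul]
  rw [← hinj.hasSum_iff hzero]
  have hfun : (evalTerm ι (jqModC L) q ∘ fun n : ℕ => (n : ℤ) - 1) =
      fun n : ℕ => q⁻¹ * (((PowerSeries.coeff n ModularCurve.jNum : ℤ) : ℂ) * q ^ n) := by
    funext n
    simp only [Function.comp_apply, evalTerm, coeff_jqModC_natCast_sub_one, map_intCast]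
    rw [zpow_sub₀ hq0, zpow_natCast, zpow_one]
    field_simp
  rw [hfun]
  exact h

/-- The same with the nome written as an exponential. -/
theorem hasSum_jqModC_exp (ι : L →+* ℂ) (τ : UpperHalfPlane) :
    HasSum (evalTerm ι (jqModC L) (Complex.exp (2 * Real.pi * Complex.I * (τ : ℂ))))
      (JFun.jFun τ) := by
  have h := hasSum_jqModC ι τ
  have hq : Function.Periodic.qParam 1 (τ : ℂ) = Complex.exp (2 * Real.pi * Complex.I * (τ : ℂ)) := by
    simp [Function.Periodic.qParam]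
  rwa [hq] at h

theorem qParam_natCast (N : ℕ) (z : ℂ) :
    Function.Periodic.qParam (N : ℝ) z = Complex.exp (2 * Real.pi * Complex.I * z / N) := by
  simp [Function.Periodic.qParam]

/-- **The `q^(1/N)`-expansion of `τ ↦ j((aτ + b)/d)`** is the formal series `cuspP ζ N a d b`,
when `ι ζ = exp(2πi/N)`.  The point `(aτ + b)/d` of the upper half plane is passed as any `τ'`
with that coercion. -/
theorem hasSum_cuspP_jFun (ι : L →+* ℂ) {N : ℕ} (hN : N ≠ 0) (ζ : Lˣ)
    (hζ : ι (ζ : L) = Complex.exp (2 * Real.pi * Complex.I / N))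
    (a d : ℕ) (b : ℤ) (hd : d ∣ N) (ha : a ≠ 0) (τ τ' : UpperHalfPlane)
    (hτ' : (τ' : ℂ) = (a * (τ : ℂ) + b) / d) :
    HasSum (evalTerm ι (cuspP ζ N a d b) (Function.Periodic.qParam (N : ℝ) τ)) (JFun.jFun τ') := by
  rw [qParam_natCast, hasSum_cuspP_iff ι hN ζ hζ a d b hd ha, ← hτ']
  exact hasSum_jqModC_exp ι τ'

/-- unfolded form: `HasSum (fun n : ℤ => ι (coeff n) * 𝕢 N τ ^ n) (j ((aτ+b)/d))` -/
theorem hasSum_cuspP_jFun' (ι : L →+* ℂ) {N : ℕ} (hN : N ≠ 0) (ζ : Lˣ)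
    (hζ : ι (ζ : L) = Complex.exp (2 * Real.pi * Complex.I / N))
    (a d : ℕ) (b : ℤ) (hd : d ∣ N) (ha : a ≠ 0) (τ τ' : UpperHalfPlane)
    (hτ' : (τ' : ℂ) = (a * (τ : ℂ) + b) / d) :
    HasSum (fun n : ℤ => ι ((cuspP ζ N a d b).coeff n) * Function.Periodic.qParam (N : ℝ) τ ^ n)
      (JFun.jFun τ') :=
  hasSum_cuspP_jFun ι hN ζ hζ a d b hd ha τ τ' hτ'

/-- The generator `j(δτ)`: its `q^(1/N)`-expansion is `qExpand N (qExpand δ jq)`. -/
theorem cuspP_one_zero' (ζ : Lˣ) (N δ : ℕ) [NeZero N] [NeZero δ] :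
    cuspP ζ N δ 1 0 = qExpand L N (qExpand L δ (jqModC L)) := by
  rw [cuspP_one_zero, qExpand_qExpand]
  exact qExpand_congr (Nat.mul_comm δ N) _

theorem cuspP_one_zero_coeffEmb [Algebra ℚ L] (ζ : Lˣ) (N δ : ℕ) [NeZero N] [NeZero δ] :
    cuspP ζ N δ 1 0 = qExpand L N (coeffEmb L (qExpand ℚ δ jq)) := by
  rw [coeffEmb_qExpand_jq, cuspP_one_zero']

/-- `τ ↦ j(δτ)` has `q^(1/N)`-expansion `qExpand N (coeffEmb (qExpand δ jq))` (no root of unity
needed). -/
theorem hasSum_jgen [Algebra ℚ L] (ι : L →+* ℂ) (N δ : ℕ) [NeZero N] [NeZero δ]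
    (τ τ' : UpperHalfPlane) (hτ' : (τ' : ℂ) = δ * (τ : ℂ)) :
    HasSum (fun n : ℤ => ι ((qExpand L N (coeffEmb L (qExpand ℚ δ jq))).coeff n) *
      Function.Periodic.qParam (N : ℝ) τ ^ n) (JFun.jFun τ') := by
  rw [coeffEmb_qExpand_jq, qExpand_qExpand]
  haveI : NeZero (N * δ) := ⟨Nat.mul_ne_zero (NeZero.ne N) (NeZero.ne δ)⟩
  have h := hasSum_jqModC_exp ι τ'
  rw [hτ'] at h
  have key := (hasSum_qExpand_iff ι (N * δ) (jqModC L)
    (Function.Periodic.qParam (N : ℝ) τ) (JFun.jFun τ')).mpr (by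
      have hpow : Function.Periodic.qParam (N : ℝ) (τ : ℂ) ^ (N * δ) =
          Complex.exp (2 * Real.pi * Complex.I * (δ * (τ : ℂ))) := by
        rw [qParam_natCast, ← Complex.exp_nat_mul]
        congr 1
        have hN0 : (N : ℂ) ≠ 0 := Nat.cast_ne_zero.mpr (NeZero.ne N)
        push_cast
        field_simp
      rw [hpow]
      exact h)
  exact key

end Fermat.Agent.S24.Puiseux
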