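import Mathlib
import Fermat.Prelude.Def_ModularCurve_X0
import Fermat.Prelude.Def_ModularCurve_LaurentCoeff
import Fermat.Prelude.Def_ModularCurve_JqCoeff
import Fermat.Prelude.Thm_ModularCurve_coeffMap_qExpand
import Fermat.Prelude.Thm_ModularCurve_coeff_jqModC_neg_one
import Fermat.Prelude.Thm_ModularCurve_coeff_jqModC_pow_of_lt

set_option autoImplicit false

noncomputable section

open HahnSeries ModularCurve

namespace Fermat.Agent.S24.Puiseux

variable {L : Type*} [Field L]

/-! ### The substitution `s ↦ ζ s` on Laurent series -/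

/-- underlying function of `scale` -/
def scaleFun (ζ : Lˣ) (A : LaurentSeries L) : LaurentSeries L where
  coeff n := ((ζ ^ n : Lˣ) : L) * A.coeff n
  isPWO_support' := A.isPWO_support.mono (fun n hn => by
    intro h
    apply hn
    show ((ζ ^ n : Lˣ) : L) * A.coeff n = 0
    rw [h, mul_zero])

@[simp]
theorem scaleFun_coeff (ζ : Lˣ) (A : LaurentSeries L) (n : ℤ) :
    (scaleFun ζ A).coeff n = ((ζ ^ n : Lˣ) : L) * A.coeff n := rfl

theorem scaleFun_coeff_ne_zero_iff (ζ : Lˣ) (A : LaurentSeries L) (n : ℤ) :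
    (scaleFun ζ A).coeff n ≠ 0 ↔ A.coeff n ≠ 0 := by
  rw [scaleFun_coeff]
  constructor
  · intro h hA
    exact h (by rw [hA, mul_zero])
  · intro hA
    exact mul_ne_zero (Units.ne_zero _) hA

theorem support_scaleFun (ζ : Lˣ) (A : LaurentSeries L) :
    (scaleFun ζ A).support = A.support := by
  ext n
  simp only [mem_support]
  exact scaleFun_coeff_ne_zero_iff ζ A n

/-- The ring endomorphism `A(s) ↦ A(ζ s)` of `L((s))`, for a unit `ζ`. -/
def scale (ζ : Lˣ) : LaurentSeries L →+* LaurentSeries L where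
  toFun := scaleFun ζ
  map_zero' := by
    ext n
    simp
  map_one' := by
    ext n
    rw [scaleFun_coeff, HahnSeries.coeff_one]
    split_ifs with h
    · subst h
      simp
    · simp
  map_add' x y := by
    ext n
    simp [mul_add]
  map_mul' x y := by
    ext n
    rw [scaleFun_coeff, HahnSeries.coeff_mul, HahnSeries.coeff_mul, Finset.mul_sum]
    have hfin : Finset.antidiagonal (scaleFun ζ x).isPWO_support (scaleFun ζ y).isPWO_support n
        = Finset.antidiagonal x.isPWO_support y.isPWO_support n := by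
      ext ij
      simp only [Finset.mem_antidiagonal, support_scaleFun]
    rw [hfin]
    refine Finset.sum_congr rfl fun ij hij => ?_
    have hsum : ij.1 + ij.2 = n := (Finset.mem_antidiagonal.mp hij).2.2
    rw [scaleFun_coeff, scaleFun_coeff, ← hsum, zpow_add, Units.val_mul]
    ring

@[simp]
theorem scale_coeff (ζ : Lˣ) (A : LaurentSeries L) (n : ℤ) :
    (scale ζ A).coeff n = ((ζ ^ n : Lˣ) : L) * A.coeff n := rfl

theorem scale_coeff' (ζ : Lˣ) (A : LaurentSeries L) (n : ℤ) :
    (scale ζ A).coeff n = (ζ : L) ^ n * A.coeff n := by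
  rw [scale_coeff, Units.val_zpow_eq_zpow_val]

theorem scale_coeff_ne_zero_iff (ζ : Lˣ) (A : LaurentSeries L) (n : ℤ) :
    (scale ζ A).coeff n ≠ 0 ↔ A.coeff n ≠ 0 :=
  scaleFun_coeff_ne_zero_iff ζ A n

theorem scale_coeff_eq_zero_iff (ζ : Lˣ) (A : LaurentSeries L) (n : ℤ) :
    (scale ζ A).coeff n = 0 ↔ A.coeff n = 0 :=
  not_iff_not.mp (scale_coeff_ne_zero_iff ζ A n)

theorem support_scale (ζ : Lˣ) (A : LaurentSeries L) :
    (scale ζ A).support = A.support :=
  support_scaleFun ζ A

@[simp]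
theorem scale_one (A : LaurentSeries L) : scale (1 : Lˣ) A = A := by
  ext n
  simp

theorem scale_mul (ζ ξ : Lˣ) (A : LaurentSeries L) :
    scale (ζ * ξ) A = scale ζ (scale ξ A) := by
  ext n
  simp only [scale_coeff, mul_zpow, Units.val_mul]
  ring

theorem scale_scale (ζ ξ : Lˣ) (A : LaurentSeries L) :
    scale ζ (scale ξ A) = scale (ζ * ξ) A :=
  (scale_mul ζ ξ A).symm

theorem scale_pow (ζ : Lˣ) (k : ℕ) (A : LaurentSeries L) :
    scale (ζ ^ k) A = (scale ζ)^[k] A := by
  induction k generalizing A with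
  | zero => simp
  | succ k ih =>
      rw [pow_succ, scale_mul, Function.iterate_succ_apply, ih]

@[simp]
theorem scale_inv_scale (ζ : Lˣ) (A : LaurentSeries L) : scale ζ⁻¹ (scale ζ A) = A := by
  rw [scale_scale, inv_mul_cancel, scale_one]

@[simp]
theorem scale_scale_inv (ζ : Lˣ) (A : LaurentSeries L) : scale ζ (scale ζ⁻¹ A) = A := by
  rw [scale_scale, mul_inv_cancel, scale_one]

theorem scale_injective (ζ : Lˣ) : Function.Injective (scale (L := L) ζ) :=
  Function.LeftInverse.injective (scale_inv_scale ζ)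

/-- `scale ζ` as a ring automorphism. -/
def scaleEquiv (ζ : Lˣ) : LaurentSeries L ≃+* LaurentSeries L :=
  RingEquiv.ofRingHom (scale ζ) (scale ζ⁻¹)
    (RingHom.ext fun A => scale_scale_inv ζ A) (RingHom.ext fun A => scale_inv_scale ζ A)

@[simp]
theorem scaleEquiv_apply (ζ : Lˣ) (A : LaurentSeries L) : scaleEquiv ζ A = scale ζ A := rfl

@[simp]
theorem scale_single (ζ : Lˣ) (n : ℤ) (r : L) :
    scale ζ (HahnSeries.single n r) = HahnSeries.single n (((ζ ^ n : Lˣ) : L) * r) := by
  ext k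
  rw [scale_coeff]
  rcases eq_or_ne k n with rfl | hk
  · simp
  · simp [HahnSeries.coeff_single_of_ne hk]

@[simp]
theorem scale_C (ζ : Lˣ) (r : L) : scale ζ (HahnSeries.C r) = HahnSeries.C r := by
  rw [HahnSeries.C_apply, scale_single]
  simp

theorem scale_algebraMap (ζ : Lˣ) (r : L) :
    scale ζ (algebraMap L (LaurentSeries L) r) = algebraMap L (LaurentSeries L) r := by
  rw [algebraMap_laurentSeries_eq_single, scale_single]
  simp

theorem scale_eq_zero_iff (ζ : Lˣ) (A : LaurentSeries L) : scale ζ A = 0 ↔ A = 0 := by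
  constructor
  · intro h
    exact scale_injective ζ (by rw [h, map_zero])
  · rintro rfl
    exact map_zero _

theorem order_scale (ζ : Lˣ) (A : LaurentSeries L) : (scale ζ A).order = A.order := by
  rcases eq_or_ne A 0 with rfl | hA
  · simp
  have hA' : scale ζ A ≠ 0 := fun h => hA ((scale_eq_zero_iff ζ A).mp h)
  refine le_antisymm ?_ ?_
  · refine HahnSeries.order_le_of_coeff_ne_zero ?_
    rw [scale_coeff_ne_zero_iff]
    exact fun h => hA (HahnSeries.coeff_order_eq_zero.mp h)
  · refine HahnSeries.order_le_of_coeff_ne_zero ?_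
    rw [← scale_coeff_ne_zero_iff ζ]
    exact fun h => hA' (HahnSeries.coeff_order_eq_zero.mp h)

theorem orderTop_scale (ζ : Lˣ) (A : LaurentSeries L) : (scale ζ A).orderTop = A.orderTop := by
  rcases eq_or_ne A 0 with rfl | hA
  · simp
  have hA' : scale ζ A ≠ 0 := fun h => hA ((scale_eq_zero_iff ζ A).mp h)
  rw [← HahnSeries.order_eq_orderTop_of_ne_zero hA, ← HahnSeries.order_eq_orderTop_of_ne_zero hA',
    order_scale]

/-! ### Interaction with `qExpand` (`s ↦ s ^ m`) -/

theorem scale_qExpand (ζ : Lˣ) (m : ℕ) [NeZero m] (A : LaurentSeries L) :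
    scale ζ (qExpand L m A) = qExpand L m (scale (ζ ^ m) A) := by
  ext k
  rw [scale_coeff]
  by_cases hk : (m : ℤ) ∣ k
  · obtain ⟨k', rfl⟩ := hk
    rw [qExpand_coeff_mul, qExpand_coeff_mul, scale_coeff, ← zpow_natCast, ← zpow_mul]
  · rw [qExpand_coeff_of_not_dvd m _ hk, qExpand_coeff_of_not_dvd m _ hk, mul_zero]

theorem qExpand_eq_zero_iff (m : ℕ) [NeZero m] (A : LaurentSeries L) :
    qExpand L m A = 0 ↔ A = 0 := by
  constructor
  · intro h
    exact qExpand_injective m (by rw [h, map_zero])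
  · rintro rfl
    exact map_zero _

theorem order_qExpand (m : ℕ) [NeZero m] (A : LaurentSeries L) :
    (qExpand L m A).order = (m : ℤ) * A.order := by
  rcases eq_or_ne A 0 with rfl | hA
  · simp
  have hA' : qExpand L m A ≠ 0 := fun h => hA ((qExpand_eq_zero_iff m A).mp h)
  refine le_antisymm ?_ ?_
  · refine HahnSeries.order_le_of_coeff_ne_zero ?_
    rw [qExpand_coeff_mul]
    exact fun h => hA (HahnSeries.coeff_order_eq_zero.mp h)
  · have hne : (qExpand L m A).coeff (qExpand L m A).order ≠ 0 :=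
      fun h => hA' (HahnSeries.coeff_order_eq_zero.mp h)
    have hdvd : (m : ℤ) ∣ (qExpand L m A).order := by
      by_contra hnd
      exact hne (qExpand_coeff_of_not_dvd m A hnd)
    obtain ⟨k, hk⟩ := hdvd
    rw [hk] at hne ⊢
    rw [qExpand_coeff_mul] at hne
    have hle : A.order ≤ k := HahnSeries.order_le_of_coeff_ne_zero hne
    have hm : (0 : ℤ) < m := by exact_mod_cast Nat.pos_of_ne_zero (NeZero.ne m)
    exact mul_le_mul_of_nonneg_left hle hm.le

/-! ### Series invariant under a root-of-unity substitution -/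

/-- If `A(ζ^m s) = A(s)` for a primitive `N`-th root of unity `ζ`, then every exponent `n`
occurring in `A` satisfies `N ∣ m * n`. -/
theorem dvd_mul_of_scale_pow_eq {N : ℕ} {ζ : Lˣ} (hζ : IsPrimitiveRoot ζ N) (m : ℕ)
    {A : LaurentSeries L} (hA : scale (ζ ^ m) A = A) {n : ℤ} (hn : A.coeff n ≠ 0) :
    (N : ℤ) ∣ (m : ℤ) * n := by
  have h1 := congrArg (fun B => B.coeff n) hA
  simp only [scale_coeff] at h1
  have h2 : (((ζ ^ m) ^ n : Lˣ) : L) = 1 := by
    have h3 : ((((ζ ^ m) ^ n : Lˣ) : L) - 1) * A.coeff n = 0 := by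
      rw [sub_mul, h1, one_mul, sub_self]
    rcases mul_eq_zero.mp h3 with h4 | h4
    · exact sub_eq_zero.mp h4
    · exact absurd h4 hn
  have h5 : ζ ^ ((m : ℤ) * n) = 1 := by
    rw [zpow_mul, zpow_natCast]
    exact Units.ext h2
  exact (hζ.zpow_eq_one_iff_dvd _).mp h5

/-- If `A(ζ^m s) = A(s)` for a primitive `N`-th root of unity `ζ`, then `N ∣ m * ord A`. -/
theorem dvd_mul_order_of_scale_pow_eq {N : ℕ} {ζ : Lˣ} (hζ : IsPrimitiveRoot ζ N) (m : ℕ)
    {A : LaurentSeries L} (hA : scale (ζ ^ m) A = A) :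
    (N : ℤ) ∣ (m : ℤ) * A.order := by
  rcases eq_or_ne A 0 with rfl | hA0
  · simp
  exact dvd_mul_of_scale_pow_eq hζ m hA (fun h => hA0 (HahnSeries.coeff_order_eq_zero.mp h))

theorem dvd_order_of_scale_eq {N : ℕ} {ζ : Lˣ} (hζ : IsPrimitiveRoot ζ N)
    {A : LaurentSeries L} (hA : scale ζ A = A) :
    (N : ℤ) ∣ A.order := by
  have h := dvd_mul_order_of_scale_pow_eq hζ 1 (A := A) (by simpa using hA)
  simpa using h

/-! ### The formal series `j(ζ s^m)` -/

/-- The formal Laurent series `j(ζ · s^m)`: the `q`-expansion of `j` with `q` replaced by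
`ζ s^m`. For `m = a N / d`, `ζ = ζ_d^b` this is the `s = q^(1/N)`-expansion of
`τ ↦ j((a τ + b) / d)`. -/
def cuspSeries (ζ : Lˣ) (m : ℕ) [NeZero m] : LaurentSeries L :=
  qExpand L m (scale ζ (jqModC L))

theorem cuspSeries_one_eq (m : ℕ) [NeZero m] :
    cuspSeries (1 : Lˣ) m = qExpand L m (jqModC L) := by
  rw [cuspSeries, scale_one]

theorem cuspSeries_one_eq_jqNModC (m : ℕ) [NeZero m] :
    cuspSeries (1 : Lˣ) m = jqNModC L m :=
  cuspSeries_one_eq m

theorem scale_cuspSeries (ξ ζ : Lˣ) (m : ℕ) [NeZero m] :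
    scale ξ (cuspSeries ζ m) = cuspSeries (ξ ^ m * ζ) m := by
  rw [cuspSeries, scale_qExpand, scale_scale, cuspSeries]

theorem jqModC_coeff_of_lt {k : ℤ} (hk : k < -1) : (jqModC L).coeff k = 0 := by
  have h := ModularCurve.coeff_jqModC_pow_of_lt L (b := 1) (m := k) (by simpa using hk)
  simpa using h

theorem jqModC_ne_zero : jqModC L ≠ 0 := fun h => by
  have h1 := ModularCurve.coeff_jqModC_neg_one L
  rw [h] at h1
  simp at h1

theorem order_jqModC : (jqModC L).order = -1 := by
  refine le_antisymm ?_ ?_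
  · refine HahnSeries.order_le_of_coeff_ne_zero ?_
    rw [ModularCurve.coeff_jqModC_neg_one]
    exact one_ne_zero
  · by_contra hlt
    have hlt' : (jqModC L).order < -1 := lt_of_not_ge hlt
    have h0 := jqModC_coeff_of_lt (L := L) hlt'
    exact jqModC_ne_zero (HahnSeries.coeff_order_eq_zero.mp h0)

theorem cuspSeries_ne_zero (ζ : Lˣ) (m : ℕ) [NeZero m] : cuspSeries ζ m ≠ 0 := by
  rw [cuspSeries, ne_eq, qExpand_eq_zero_iff, scale_eq_zero_iff]
  exact jqModC_ne_zero

theorem order_cuspSeries (ζ : Lˣ) (m : ℕ) [NeZero m] : (cuspSeries ζ m).order = -(m : ℤ) := by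
  rw [cuspSeries, order_qExpand, order_scale, order_jqModC]
  ring

theorem cuspSeries_coeff_neg (ζ : Lˣ) (m : ℕ) [NeZero m] :
    (cuspSeries ζ m).coeff (-(m : ℤ)) = ((ζ⁻¹ : Lˣ) : L) := by
  have h : -(m : ℤ) = (m : ℤ) * (-1) := by ring
  rw [cuspSeries, h, qExpand_coeff_mul, scale_coeff, ModularCurve.coeff_jqModC_neg_one, mul_one,
    zpow_neg_one]

theorem cuspSeries_coeff_of_lt (ζ : Lˣ) (m : ℕ) [NeZero m] {k : ℤ} (hk : k < -(m : ℤ)) :
    (cuspSeries ζ m).coeff k = 0 := by
  refine HahnSeries.coeff_eq_zero_of_lt_order ?_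
  rw [order_cuspSeries]
  exact hk

/-- The leading term determines the data `(ζ, m)`. -/
theorem cuspSeries_injective {ζ ζ' : Lˣ} {m m' : ℕ} [NeZero m] [NeZero m']
    (h : cuspSeries ζ m = cuspSeries ζ' m') : m = m' ∧ ζ = ζ' := by
  have ho := congrArg HahnSeries.order h
  rw [order_cuspSeries, order_cuspSeries] at ho
  have hm : m = m' := by exact_mod_cast neg_injective ho
  subst hm
  refine ⟨rfl, ?_⟩
  have hc := congrArg (fun B => B.coeff (-(m : ℤ))) h
  simp only [cuspSeries_coeff_neg] at hc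
  exact inv_injective (Units.ext hc)

/-! ### Base change of coefficients -/

theorem coeffMap_scale {L' : Type*} [Field L'] (f : L →+* L') (ζ : Lˣ) (A : LaurentSeries L) :
    coeffMap f (scale ζ A) = scale (Units.map (f : L →* L') ζ) (coeffMap f A) := by
  ext n
  simp only [coeffMap_coeff, scale_coeff, map_mul]
  congr 1
  rw [← map_zpow]
  rfl

theorem coeffMap_jqModC {L' : Type*} [Field L'] (f : L →+* L') :
    coeffMap f (jqModC L) = jqModC L' :=
  map_jqModC f

theorem coeffMap_cuspSeries {L' : Type*} [Field L'] (f : L →+* L') (ζ : Lˣ) (m : ℕ) [NeZero m] :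
    coeffMap f (cuspSeries ζ m) = cuspSeries (Units.map (f : L →* L') ζ) m := by
  rw [cuspSeries, ModularCurve.coeffMap_qExpand, coeffMap_scale, coeffMap_jqModC, cuspSeries]

theorem coeffEmb_jq [Algebra ℚ L] : coeffEmb L jq = jqModC L := by
  rw [← jqModC_rat]
  exact map_jqModC (algebraMap ℚ L)

theorem coeffEmb_qExpand_jq [Algebra ℚ L] (d : ℕ) [NeZero d] :
    coeffEmb L (qExpand ℚ d jq) = qExpand L d (jqModC L) := by
  rw [coeffEmb, ModularCurve.coeffMap_qExpand]
  congr 1
  exact coeffEmb_jq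

end Fermat.Agent.S24.Puiseux
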